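-- Conditional wiring for statement S03: no Frey package exists, GIVEN modularity of the Frey curve
-- (the S04 shape), irreducibility of its mod-p representation (the S09 shape) and the level-lowering
-- endgame (the S45 shape). The only unconditional input is S07 (no weight-2 cusp forms on Gamma0(2)).
import Fermat.Statements.S03
import Fermat.Statements.S45
import Fermat.Agent.S07

set_option autoImplicit false
open WeierstrassCurve WeierstrassCurve.Affine WeierstrassCurve.Affine.Point
open CuspForm ModularFormClass UpperHalfPlane

namespace Fermat.Agent.Wiring

/-- The S03 endgame: from the S04, S09 and S45 shapes (as hypotheses) and the proved S07,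
no Frey package exists. -/
theorem no_freyPackage_of_shapes
    (h04 : ∀ P : FreyPackage, P.freyCurve.IsModular)
    (h09 : ∀ P : FreyPackage,
      GaloisRepIsIrreducible (K := AlgebraicClosure ℚ) ℚ P.freyCurve P.p)
    (h45 : ∀ P : FreyPackage, P.freyCurve.IsModular →
      GaloisRepIsIrreducible (K := AlgebraicClosure ℚ) ℚ P.freyCurve P.p →
      ∃ f : CuspForm (CongruenceSubgroup.Gamma0 2) 2, f ≠ 0)
    (P : FreyPackage) : False := by
  obtain ⟨f, hf⟩ := h45 P (h04 P) (h09 P)
  exact hf (Fermat.Agent.S07.result f)

end Fermat.Agent.Wiring
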